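import Fermat.Agent.S27x.A.CountOK
import Fermat.Agent.S27x.Base.Contract

/-!
# P-S27, block A: the frozen target `Base.AOut` of the `(T0)` chain (helper67)
-/

set_option autoImplicit false

namespace Fermat.Agent.S27x.A

/-- **Output of block A** in the shape of `S27x/Base/Contract.lean`. -/
theorem aOut : Base.AOut := by
  intro F _ _ _ _ x Γ _ D n hn hcusp _
  exact countOK D hn hcusp

end Fermat.Agent.S27x.A
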