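/-
P-S27, block A (helper20).  Derived facts in the setting of block A (note `S27-IFACE-A`):
`D : Dict.ConjAbs.EmbData ℂ F (RingHom.id ℂ) x Γ` (an embedding `F →+* MerFun` with `x ↦ j` whose
stabiliser in `SL(2, ℤ)` is exactly `Γ`) all of whose `SL(2, ℤ)`-translates are meromorphic at the
cusp in the parameter `q_n`.

* `neg_one_smul_merFun`, `neg_one_mem` : `-1 ∈ Γ`;
* `T_pow_smul_of_isCuspMer`, `conj_T_pow_mem`, `conj_T_pow_mem'` : `g⁻¹ T ^ n g ∈ Γ` for all `g`;
* `transcendental_x`, `emb_aeval`, `emb_ne_zero`.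
-/
import Mathlib
import Fermat.Agent.Gateway.Dict.ConjAbs
import Fermat.Agent.Gateway.Dict.DegreeC
import Fermat.Agent.Gateway.Dict.MerInvJ
import Fermat.Agent.S24.CuspOrdMer

set_option autoImplicit false

noncomputable section

open UpperHalfPlane
open scoped MatrixGroups

namespace Fermat.Agent.S27x.A

open Fermat.Agent.S24 Fermat.Agent.S24.MerFun Fermat.Agent.S24.CuspOrd
open Fermat.Agent.Gateway.Dict Fermat.Agent.Gateway.Dict.ConjAbs

/-- `-1` acts trivially on holomorphic functions. -/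
theorem neg_one_smul_holFun' (f : HolFun) : (-1 : SL(2, ℤ)) • f = f := by
  ext τ
  rw [HolFun.sl_smul_apply, inv_neg, inv_one, ModularGroup.SL_neg_smul, one_smul]

/-- `-1` acts trivially on meromorphic functions. -/
theorem neg_one_smul_merFun (h : MerFun) : (-1 : SL(2, ℤ)) • h = h := by
  obtain ⟨a, b, -, rfl⟩ := IsFractionRing.div_surjective (A := HolFun) h
  rw [smul_div₀', sl_smul_algebraMap, sl_smul_algebraMap, neg_one_smul_holFun',
    neg_one_smul_holFun']

/-- A function meromorphic at the cusp in the parameter `q_n` is invariant under `T ^ n`. -/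
theorem T_pow_smul_of_isCuspMer {n : ℕ} {h : MerFun} (hh : IsCuspMer n h) :
    ModularGroup.T ^ n • h = h := by
  obtain ⟨a, b, ha, hb, -, rfl⟩ := hh
  rw [smul_div₀', sl_smul_algebraMap, sl_smul_algebraMap, T_pow_smul_of_mem_cuspFnAlg ha,
    T_pow_smul_of_mem_cuspFnAlg hb]

variable {F : Type*} [Field F] [Algebra ℂ F] {x : F} {Γ : Subgroup SL(2, ℤ)}
  (D : EmbData ℂ F (RingHom.id ℂ) x Γ)

include D in
/-- The stabiliser of the embedding contains `-1`. -/
theorem neg_one_mem : (-1 : SL(2, ℤ)) ∈ Γ :=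
  D.stab _ fun f => neg_one_smul_merFun (D.emb f)

theorem emb_ne_zero {f : F} (hf : f ≠ 0) : D.emb f ≠ 0 :=
  (map_ne_zero_iff _ D.emb.injective).mpr hf

variable {n : ℕ} (hcusp : ∀ (f : F) (g : SL(2, ℤ)), IsCuspMer n (g • D.emb f))

include hcusp in
/-- All conjugates of `T ^ n` lie in the stabiliser. -/
theorem conj_T_pow_mem (g : SL(2, ℤ)) : g⁻¹ * ModularGroup.T ^ n * g ∈ Γ := by
  refine D.stab _ fun f => ?_
  have h1 := T_pow_smul_of_isCuspMer (hcusp f g)
  rw [mul_smul, mul_smul, h1, inv_smul_smul]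

include hcusp in
theorem conj_T_pow_mem' (g : SL(2, ℤ)) : g * ModularGroup.T ^ n * g⁻¹ ∈ Γ := by
  have := conj_T_pow_mem D hcusp g⁻¹
  rwa [inv_inv] at this

include hcusp in
theorem conj_T_zpow_mem' (g : SL(2, ℤ)) : g * ModularGroup.T ^ (n : ℤ) * g⁻¹ ∈ Γ := by
  rw [zpow_natCast]
  exact conj_T_pow_mem' D hcusp g

/-- The embedding is compatible with polynomials in `x` resp. `j`. -/
theorem emb_aeval (q : Polynomial ℂ) :
    D.emb (Polynomial.aeval x q) = algebraMap HolFun MerFun (Polynomial.aeval jHol q) :=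
  DegreeC.emb_aeval D q

include D in
/-- `x` is transcendental over `ℂ`, because `j` is. -/
theorem transcendental_x : Transcendental ℂ x := by
  intro halg
  obtain ⟨p, hp0, hp⟩ := halg
  have h1 := emb_aeval D p
  rw [hp, map_zero] at h1
  have h2 : (Polynomial.aeval jHol p : HolFun) = 0 :=
    IsFractionRing.injective HolFun MerFun (by rw [← h1, map_zero])
  exact MerInvJ.aeval_jHol_ne_zero hp0 h2

end Fermat.Agent.S27x.A
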