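/-
P-S27, block A (helper20): `const_of_ord` in the setting of block A.

A nonzero element of `F` without zeros and poles is a constant: `F` is finite over `ℂ(x)`
(`S27x/G1/DegreeGamma.lean`, helper24) and `x` is transcendental, so this is
`Gateway.BaseChange.ModularConst.exists_const_of_ord_eq_zero`.
-/
import Fermat.Agent.S27x.A.Setting
import Fermat.Agent.S27x.G1.DegreeGamma
import Fermat.Agent.Gateway.BaseChange.ModularConst

set_option autoImplicit false

open UpperHalfPlane IntermediateField AlgebraicCurve
open scoped MatrixGroups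

namespace Fermat.Agent.S27x.A

open Fermat.Agent.S24 Fermat.Agent.S24.MerFun Fermat.Agent.S24.CuspOrd
open Fermat.Agent.Gateway.Dict Fermat.Agent.Gateway.Dict.ConjAbs

variable {F : Type*} [Field F] [Algebra ℂ F] {x : F} {Γ : Subgroup SL(2, ℤ)}
  (D : EmbData ℂ F (RingHom.id ℂ) x Γ) [Γ.FiniteIndex] {n : ℕ} (hn : 0 < n)
  (hcusp : ∀ (f : F) (g : SL(2, ℤ)), IsCuspMer n (g • D.emb f))

include D hn hcusp in
/-- `F` is finite over `ℂ(x)` (instance-free form: only `[Γ.FiniteIndex]`). -/
theorem finiteDimensional_adjoin : FiniteDimensional ℂ⟮x⟯ F := by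
  classical
  letI : Fintype (SL(2, ℤ) ⧸ Γ) := Subgroup.fintypeQuotientOfFiniteIndex
  exact Fermat.Agent.S27x.G1.finiteDimensional D hn hcusp

include D hn hcusp in
/-- A nonzero element of `F` with trivial divisor is a constant (the field `const_of_ord` of
`S27x.Theta.DictInputG`). -/
theorem const_of_ord (f : F) (_hf : f ≠ 0) (hord : ∀ v : Place ℂ F, v.ord f = 0) :
    ∃ c : ℂ, f = algebraMap ℂ F c := by
  have := finiteDimensional_adjoin D hn hcusp
  exact Fermat.Agent.Gateway.BaseChange.ModularConst.exists_const_of_ord_eq_zero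
    (transcendental_x D) f hord

include D hn hcusp in
/-- A nonzero element of `F` without zeros is a constant. -/
theorem const_of_no_zero (f : F) (h : ∀ v : Place ℂ F, ¬ 0 < v.ord f) :
    ∃ c : ℂ, f = algebraMap ℂ F c := by
  have := finiteDimensional_adjoin D hn hcusp
  exact Fermat.Agent.Gateway.BaseChange.ModularConst.exists_const_of_no_zero
    (transcendental_x D) f h

end Fermat.Agent.S27x.A
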