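import Fermat.Agent.S27x.A.Final
import Fermat.Agent.S27x.G1.GenusGamma

/-!
# P-S27, block A, final statement (helper67)

`countOK`: for a curve `F / ℂ` with an analytic uniformisation
`D : Dict.ConjAbs.EmbData ℂ F (RingHom.id ℂ) x Γ` (`Γ ≤ SL(2, ℤ)` of finite index, all translates
cusp-meromorphic of level `n > 0`): `#Pic⁰(F)[m] = m ^ (2 g)` for all `m > 0`.
-/

set_option autoImplicit false
set_option linter.unusedSectionVars false

noncomputable section

open scoped MatrixGroups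
open UpperHalfPlane AlgebraicCurve ModularGroup IntermediateField
open Fermat.Agent.S24 Fermat.Agent.S24.MerFun Fermat.Agent.S24.CuspOrd
open Fermat.Agent.Gateway.Dict Fermat.Agent.Gateway.Dict.ConjAbs

namespace Fermat.Agent.S27x.A

variable {F : Type*} [Field F] [Algebra ℂ F] [IsCurveOver ℂ F] {x : F}
  {Γ : Subgroup SL(2, ℤ)} [Γ.FiniteIndex] (D : EmbData ℂ F (RingHom.id ℂ) x Γ)
  {n : ℕ} (hn : 0 < n) (hcusp : ∀ (f : F) (g : SL(2, ℤ)), IsCuspMer n (g • D.emb f))

include D hn hcusp in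
/-- Riemann–Hurwitz in orbit form, in the setting of block A. -/
theorem two_genusFF_add :
    2 * genusFF ℂ F
      + Fermat.Agent.Gateway.A2.orbNum (S : SL(2, ℤ)) (SL(2, ℤ) ⧸ Γ)
      + Fermat.Agent.Gateway.A2.orbNum (S * T : SL(2, ℤ)) (SL(2, ℤ) ⧸ Γ)
      + Fermat.Agent.Gateway.A2.orbNum (T : SL(2, ℤ)) (SL(2, ℤ) ⧸ Γ)
      = Nat.card (SL(2, ℤ) ⧸ Γ) + 2 := by
  haveI : Fintype (SL(2, ℤ) ⧸ Γ) := Fintype.ofFinite _
  obtain ⟨hfd, -, hnorm⟩ := G1.finrank_and_norm D hn hcusp
  haveI : FiniteDimensional ℂ⟮x⟯ F := hfd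
  have hT : ∀ b : SL(2, ℤ) ⧸ Γ, T ^ n • b = b := by
    intro b
    induction b using QuotientGroup.induction_on with
    | H g => exact G1.smul_eq_of_conj_mem (conj_T_pow_mem D hcusp g)
  exact G1.two_genusFF_add D hnorm (neg_one_mem D) hn hcusp hT

include D hn hcusp in
/-- **Block A, final statement**: the torsion count for an analytically uniformised curve. -/
theorem countOK : Contract.CountOK ℂ F :=
  countOK_of_genus D hn hcusp (two_genusFF_add D hn hcusp)

end Fermat.Agent.S27x.A
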