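import Fermat.Agent.S27x.A.FinalCore
import Fermat.Agent.S27x.A.Setting
import Fermat.Agent.S27x.G1.PlacesGamma
import Fermat.Agent.S27x.G1.DegreeGamma
import Fermat.Agent.S27x.Theta.Eis
import Fermat.Agent.Lib.RiemannRoch.Consequences

/-!
# P-S27, block A, A-Final (helper67): the torsion count for an analytically uniformised curve

Setting of block A (note `S27-IFACE-A`): `F / ℂ` a curve, `x : F`, `Γ ≤ SL(2, ℤ)` of finite index,
`D : Dict.ConjAbs.EmbData ℂ F (RingHom.id ℂ) x Γ` (an embedding `F →+* MerFun` with `x ↦ j` whose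
stabiliser is exactly `Γ`), `n > 0` with all `SL(2, ℤ)`-translates of all `emb f` cusp-meromorphic
of level `n`.

* `dictInput D hn hcusp : Theta.DictInputG Γ n F`;
* `placeCases D hn hcusp : Theta.PlaceCases (dictInput D hn hcusp)`;
* `card_torsion_eq_card_charPE`: `#Pic⁰(F)[m] = #Hom_pe(Γ, μ_m)`;
* `countOK_of_genus`: `Contract.CountOK ℂ F` from the Riemann–Hurwitz relation in orbit form.
-/

set_option autoImplicit false
set_option linter.unusedSectionVars false

noncomputable section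

open scoped MatrixGroups
open UpperHalfPlane AlgebraicCurve ModularGroup IntermediateField
open Fermat.Agent.S24 Fermat.Agent.S24.MerFun Fermat.Agent.S24.CuspOrd
open Fermat.Agent.Gateway Fermat.Agent.Gateway.A2 Fermat.Agent.Gateway.A2.Count
open Fermat.Agent.Gateway.Root
open Fermat.Agent.Gateway.Dict Fermat.Agent.Gateway.Dict.ConjAbs

namespace Fermat.Agent.S27x.A

variable {F : Type*} [Field F] [Algebra ℂ F] [IsCurveOver ℂ F] {x : F}
  {Γ : Subgroup SL(2, ℤ)} [Γ.FiniteIndex] (D : EmbData ℂ F (RingHom.id ℂ) x Γ)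
  {n : ℕ} (hn : 0 < n) (hcusp : ∀ (f : F) (g : SL(2, ℤ)), IsCuspMer n (g • D.emb f))

/-- Every point of `ℍ` gives a place. -/
theorem exists_place_of_point' (z : ℍ) :
    ∃ (v : Place ℂ F) (c : ℕ), 0 < c ∧
      ∀ f : F, f ≠ 0 → (c : ℤ) * v.ord f = ordMer z (D.emb f) :=
  G1.exists_place_of_point D z ⟨jFn z, rfl⟩

include D hn hcusp in
theorem nonempty_place : Nonempty (Place ℂ F) := by
  obtain ⟨v, -⟩ := G1.exists_place_of_cusp D hn hcusp 1
  exact ⟨v⟩

include D hn hcusp in
/-- A function without zeros and poles is constant. -/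
theorem const_of_ord_eq_zero (f : F) (_hf : f ≠ 0) (hord : ∀ v : Place ℂ F, v.ord f = 0) :
    ∃ c : ℂ, f = algebraMap ℂ F c := by
  haveI : Nonempty (Place ℂ F) := nonempty_place D hn hcusp
  have hmem : f ∈ riemannRochSpace (0 : Divisor ℂ F) := by
    rw [mem_riemannRochSpace_iff]
    intro v
    right
    rw [hord v]
    simp
  have halg : IsAlgebraic ℂ f := Lib.RiemannRoch.isAlgebraic_of_mem_zero hmem
  obtain ⟨c, hc⟩ := PDiv.mem_range_of_isAlgebraic halg
  exact ⟨c, hc.symm⟩

/-- **The dictionary input of `S27x/Theta`** in the setting of block A. -/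
def dictInput : Theta.DictInputG Γ n F where
  emb := D.emb
  emb_const c := D.emb_const c
  emb_fixed γ hγ f := D.fixed γ hγ f
  isCuspMer := hcusp
  point z := exists_place_of_point' D z
  cusp g := G1.exists_place_of_cusp D hn hcusp g
  range h h1 h2 := by
    haveI : Fintype (SL(2, ℤ) ⧸ Γ) := Fintype.ofFinite _
    exact (G1.mem_range_iff D hn hcusp h).mpr ⟨h1, h2⟩
  const_of_ord := const_of_ord_eq_zero D hn hcusp
  neg_one_mem := neg_one_mem D
  conj_T_pow_mem := conj_T_pow_mem D hcusp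

@[simp] theorem dictInput_emb : (dictInput D hn hcusp).emb = D.emb := rfl

/-- **The classification of the places** in the shape consumed by `S27x/Theta`. -/
theorem placeCases : Theta.PlaceCases (dictInput D hn hcusp) := by
  haveI : Fintype (SL(2, ℤ) ⧸ Γ) := Fintype.ofFinite _
  obtain ⟨hfd, -, hnorm⟩ := G1.finrank_and_norm D hn hcusp
  haveI : FiniteDimensional ℂ⟮x⟯ F := hfd
  have hT : ∀ b : SL(2, ℤ) ⧸ Γ, T ^ n • b = b := by
    intro b
    induction b using QuotientGroup.induction_on with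
    | H g => exact G1.smul_eq_of_conj_mem (conj_T_pow_mem D hcusp g)
  intro v
  rcases G1.place_cases D hnorm (neg_one_mem D) hn hcusp hT v with
    ⟨z, δ, e, h1, h2, h3, h4, h5, h6⟩ | ⟨g, w, h1, h2, h3, h4⟩
  · exact Or.inl ⟨z, δ, e, h1, h2, h3, Gateway.Theta.isPE_of_abs_trace_le h4, h5,
      fun f _ => h6 f⟩
  · exact Or.inr ⟨g, w, h1, h2, h3, fun f _ => h4 f⟩

include D hn hcusp in
/-- **`#Pic⁰(F)[m] = #Hom_pe(Γ, μ_m)`** in the setting of block A. -/
theorem card_torsion_eq_card_charPE (m : ℕ) [NeZero m] :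
    Nat.card (Pic0.torsion ℂ F m) = Nat.card (charPE Γ (rootsOfUnity m ℂ)) :=
  Theta.card_torsion_eq_card_charPE m hn (placeCases D hn hcusp)

include D hn hcusp in
/-- **Block A, final statement, modulo the genus relation** (Riemann–Hurwitz in orbit form,
`S27x/G1/GenusGamma.lean`). -/
theorem countOK_of_genus
    (hgenus : 2 * genusFF ℂ F
        + orbNum (S : SL(2, ℤ)) (SL(2, ℤ) ⧸ Γ) + orbNum (S * T : SL(2, ℤ)) (SL(2, ℤ) ⧸ Γ)
        + orbNum (T : SL(2, ℤ)) (SL(2, ℤ) ⧸ Γ) = Nat.card (SL(2, ℤ) ⧸ Γ) + 2) :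
    Contract.CountOK ℂ F :=
  countOK_of_card_of_genus (neg_one_mem D)
    (fun m _ => card_torsion_eq_card_charPE D hn hcusp m) hgenus

end Fermat.Agent.S27x.A
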