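import Fermat.Agent.S27x.Contract
import Fermat.Agent.S27x.Count.Final
import Fermat.Agent.S27x.EIS.HChiGen
import Fermat.Agent.Lib.RiemannRoch.FunctionFieldRR

/-!
# P-S27, block A, A-Final, part 1 (helper67): the count from `θ` and the genus relation

* `isWidth_of_conj`: the width hypothesis in the convention of `Gateway/Theta`
  (`g⁻¹ * T ^ n * g ∈ Γ`) gives `EIS.IsWidth Γ n`;
* `exists_eigenFun`: eigenfunctions for all characters in `charPE Γ μ_m`, level `n`;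
* `countOK_of_card_of_genus`: `CountOK ℂ F` from `#Pic⁰(F)[m] = #charPE Γ μ_m` and the
  Riemann–Hurwitz relation `2 g + #orb(S) + #orb(S T) + #orb(T) = #(SL(2, ℤ) ⧸ Γ) + 2`.
-/

set_option autoImplicit false

open scoped MatrixGroups
open AlgebraicCurve ModularGroup
open Fermat.Agent.S24 Fermat.Agent.S24.CuspOrd
open Fermat.Agent.Gateway Fermat.Agent.Gateway.A2 Fermat.Agent.Gateway.A2.Count
open Fermat.Agent.Gateway.Root

namespace Fermat.Agent.S27x.A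

variable {Γ : Subgroup SL(2, ℤ)}

/-- The width hypothesis of `Gateway/Theta` gives the width hypothesis of `EIS`. -/
theorem isWidth_of_conj {n : ℕ} (hT : ∀ g : SL(2, ℤ), g⁻¹ * T ^ n * g ∈ Γ) :
    EIS.IsWidth Γ n := by
  intro g
  have h := hT g⁻¹
  rwa [inv_inv, ← zpow_natCast] at h

theorem conj_of_isWidth {n : ℕ} (hw : EIS.IsWidth Γ n) (g : SL(2, ℤ)) :
    g⁻¹ * T ^ n * g ∈ Γ := by
  have h := hw g⁻¹
  rwa [inv_inv, zpow_natCast] at h

/-- Eigenfunctions for all characters in `charPE Γ μ_m`, of level `n`. -/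
theorem exists_eigenFun {n : ℕ} (hT : ∀ g : SL(2, ℤ), g⁻¹ * T ^ n * g ∈ Γ) (m : ℕ) [NeZero m]
    (χ : Γ →* rootsOfUnity m ℂ) (hχ : χ ∈ charPE Γ (rootsOfUnity m ℂ)) :
    ∃ h : MerFun, h ≠ 0 ∧
      (∀ γ : Γ, (γ : SL(2, ℤ))⁻¹ • h = cst (((χ γ : rootsOfUnity m ℂ) : ℂˣ) : ℂ) * h) ∧
      ∀ g : SL(2, ℤ), IsCuspMer n (g • h) := by
  obtain ⟨h, h0, hlaw, -, hcusp⟩ := EIS.exists_hChi_of_isWidth (isWidth_of_conj hT) ⟨χ, hχ⟩
  exact ⟨h, h0, hlaw, hcusp⟩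

variable [Γ.FiniteIndex]

/-- **The count from `θ` and the genus relation.** -/
theorem countOK_of_card_of_genus {F : Type*} [Field F] [Algebra ℂ F]
    (hneg : (-1 : SL(2, ℤ)) ∈ Γ)
    (hcard : ∀ (m : ℕ) [NeZero m],
      Nat.card (Pic0.torsion ℂ F m) = Nat.card (charPE Γ (rootsOfUnity m ℂ)))
    (hgenus : 2 * genusFF ℂ F
        + orbNum (S : SL(2, ℤ)) (SL(2, ℤ) ⧸ Γ) + orbNum (S * T : SL(2, ℤ)) (SL(2, ℤ) ⧸ Γ)
        + orbNum (T : SL(2, ℤ)) (SL(2, ℤ) ⧸ Γ) = Nat.card (SL(2, ℤ) ⧸ Γ) + 2) :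
    Contract.CountOK ℂ F := by
  intro m hm
  haveI : NeZero m := ⟨hm.ne'⟩
  have hr : Count.peRank Γ = 2 * genusFF ℂ F := by
    have h1 := Count.peRank_add_eq Γ hneg
    omega
  rw [hcard m, Count.card_charPE_general Γ hneg m, hr]

end Fermat.Agent.S27x.A
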